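import Mathlib
import Fermat.Prelude.Def_FreyPackage_EigenformResidualAttachment
import Fermat.Prelude.Def_GaloisRep_Residual
import Fermat.Agent.S13.Tor

/-!
# S42 from S29

`EigenformResidualAttachmentAt` follows from the statement of S29, plus the finiteness of the
`p`-torsion of the Frey curve (S13).
-/

set_option autoImplicit false
set_option linter.style.haveILetI false
set_option linter.unusedSectionVars false

namespace Fermat.Agent.S42

open Polynomial WeierstrassCurve WeierstrassCurve.Affine WeierstrassCurve.Affine.Point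

local notation "Qb" => AlgebraicClosure ℚ

/-- The statement of S29. -/
def S29Stmt : Prop :=
  ∀ {N : ℕ} {g : CuspForm (CongruenceSubgroup.Gamma0 N) 2} (_ : g.IsNormalizedEigenform)
    {p : ℕ} (_ : p.Prime) {k : Type} [Field k] [CharP k p]
    (φ : integralClosure ℤ ℂ →+* k),
    ∃ ρ : ResidualGaloisRep k, ρ.IsAttachedTo g φ ∧
      ∀ ℓ : ℕ, ℓ.Prime → ¬ ℓ ∣ N * p → ρ.IsUnramifiedAt ℓ

/-- first coordinate -/
noncomputable def cx {E : Affine ℚ} : (E⁄Qb).Point → Qb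
  | .zero => 0
  | .some x _ _ => x

/-- second coordinate -/
noncomputable def cy {E : Affine ℚ} : (E⁄Qb).Point → Qb
  | .zero => 0
  | .some _ y _ => y

theorem smul_eq_self_of_fix {E : Affine ℚ} [DecidableEq Qb] (σ : Qb ≃ₐ[ℚ] Qb) (P : (E⁄Qb).Point)
    (hx : σ (cx P) = cx P) (hy : σ (cy P) = cy P) : σ • P = P := by
  rcases P with _ | ⟨x, y, h⟩
  · rfl
  · change Point.map σ.toAlgHom (Point.some x y h) = _
    have hx' : σ x = x := hx
    have hy' : σ y = y := hy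
    rw [Point.map_some]
    simp only [Point.some.injEq]
    exact ⟨hx', hy'⟩

theorem exists_level_torsion (E : Affine ℚ) {p : ℕ} (hodd : Odd p) [inst : DecidableEq Qb] :
    ∃ L : IntermediateField ℚ Qb, FiniteDimensional ℚ L ∧ ∀ σ : Qb ≃ₐ[ℚ] Qb,
      (∀ x ∈ L, σ x = x) → galoisRepModuleEnd (S := ℚ) (K := Qb) E p σ = 1 := by
  obtain rfl : inst = instDecEqAlgebraicClosureRat := Subsingleton.elim _ _
  have hfin := (Fermat.Agent.S13.tor_finite E hodd).1
  set T : Set (E⁄Qb).Point :=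
    ((Submodule.torsionBy ℤ (E⁄Qb).Point (p : ℕ) : Submodule ℤ (E⁄Qb).Point) :
      Set (E⁄Qb).Point) with hT
  have hS : (cx '' T ∪ cy '' T).Finite := (hfin.image _).union (hfin.image _)
  refine ⟨IntermediateField.adjoin ℚ (cx '' T ∪ cy '' T), ?_, ?_⟩
  · haveI : Finite (cx '' T ∪ cy '' T : Set Qb) := hS
    exact IntermediateField.finiteDimensional_adjoin
      (fun x _ => (Algebra.IsIntegral.isIntegral (R := ℚ) x))
  · intro σ hσ
    ext x
    change σ • (x : (E⁄Qb).Point) = x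
    apply smul_eq_self_of_fix
    · exact hσ _ (IntermediateField.subset_adjoin _ _ (Or.inl ⟨x, x.2, rfl⟩))
    · exact hσ _ (IntermediateField.subset_adjoin _ _ (Or.inr ⟨x, x.2, rfl⟩))

theorem trace_of_charpoly {K V : Type} [Field K] [AddCommGroup V] [Module K V]
    [Module.Finite K V]
    (h2 : Module.finrank K V = 2) (f : Module.End K V) (a d : K)
    (h : LinearMap.charpoly f = X ^ 2 - C a * X + C d) :
    LinearMap.trace K V f = a ∧ LinearMap.det f = d := by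
  constructor
  · let b := Module.Free.chooseBasis K V
    have hcard : Fintype.card (Module.Free.ChooseBasisIndex K V) = 2 := by
      rw [← Module.finrank_eq_card_chooseBasisIndex, h2]
    haveI : Nonempty (Module.Free.ChooseBasisIndex K V) := by
      rw [← Fintype.card_pos_iff, hcard]; norm_num
    rw [LinearMap.trace_eq_matrix_trace K b, Matrix.trace_eq_neg_charpoly_coeff, hcard,
      LinearMap.charpoly_toMatrix, h]
    simp [Polynomial.coeff_C]
  · rw [LinearMap.det_eq_sign_charpoly_coeff, h2, h]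
    simp

theorem charP_quot {p : ℕ} (hp : p.Prime) (𝔪 : Ideal (integralClosure ℤ ℂ)) [𝔪.IsMaximal]
    (hmem : (p : integralClosure ℤ ℂ) ∈ 𝔪) : CharP (integralClosure ℤ ℂ ⧸ 𝔪) p := by
  letI : Field (integralClosure ℤ ℂ ⧸ 𝔪) := Ideal.Quotient.field 𝔪
  obtain ⟨q, hq⟩ := CharP.exists (integralClosure ℤ ℂ ⧸ 𝔪)
  have h0 : ((p : ℕ) : integralClosure ℤ ℂ ⧸ 𝔪) = 0 := by
    have := Ideal.Quotient.eq_zero_iff_mem.mpr hmem
    simpa using this
  have hdvd : q ∣ p := (CharP.cast_eq_zero_iff _ q p).mp h0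
  rcases (Nat.dvd_prime hp).mp hdvd with h1 | h1
  · exact absurd h1 (CharP.char_ne_one (integralClosure ℤ ℂ ⧸ 𝔪) q)
  · exact h1 ▸ hq

theorem of_S29 (h29 : S29Stmt) (P : FreyPackage) :
    ∀ M : ℕ, 0 < M → P.EigenformResidualAttachmentAt M := by
  intro M _ g hg 𝔪 h𝔪 hmem
  letI : Field (integralClosure ℤ ℂ ⧸ 𝔪) := Ideal.Quotient.field 𝔪
  haveI : CharP (integralClosure ℤ ℂ ⧸ 𝔪) P.p := charP_quot P.pp 𝔪 hmem
  obtain ⟨ρ, hatt, -⟩ := h29 hg P.pp (Ideal.Quotient.mk 𝔪)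
  obtain ⟨L₁, hL₁, hρ⟩ := ρ.factorsThroughFiniteLevel
  obtain ⟨L₂, hL₂, hE⟩ := exists_level_torsion P.freyCurve P.hp_odd
    (inst := FreyPackage.instDecEqQbarCongruenceRecovery)
  let F : IntermediateField ℚ Qb := IntermediateField.normalClosure ℚ ↥(L₁ ⊔ L₂) Qb
  haveI : FiniteDimensional ℚ ↥(L₁ ⊔ L₂) := IntermediateField.finiteDimensional_sup L₁ L₂
  haveI : FiniteDimensional ℚ F := normalClosure.is_finiteDimensional ℚ ↥(L₁ ⊔ L₂) Qb
  haveI : Normal ℚ F := normalClosure.normal ℚ ↥(L₁ ⊔ L₂) Qb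
  haveI : IsGalois ℚ F := ⟨⟩
  haveI : NumberField F := ⟨⟩
  have hle : L₁ ⊔ L₂ ≤ F := IntermediateField.le_normalClosure _
  refine ⟨integralClosure ℤ ℂ ⧸ 𝔪, inferInstance, ZMod.algebra _ P.p, ρ.V, inferInstance,
    inferInstance, ρ.ρ, Ideal.Quotient.mk 𝔪, F, inferInstance, inferInstance, inferInstance,
    inferInstance, inferInstance, ?_, ρ.finrank_eq, ?_, ?_, ?_⟩
  · rw [Ideal.mk_ker]
  · intro σ hσ
    have hfix : ∀ x ∈ F, σ x = x := by
      intro x hx
      have h1 := AlgEquiv.restrictNormal_commutes σ F ⟨x, hx⟩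
      have h2 : σ.restrictNormal F = 1 := hσ
      rw [h2] at h1
      exact h1.symm
    refine ⟨?_, ?_⟩
    · exact hE σ (fun x hx => hfix x (hle (le_sup_right (a := L₁) hx)))
    · exact hρ σ (fun x hx => hfix x (hle (le_sup_left (b := L₂) hx)))
  · intro ℓ hℓ hM hp A hA τ hτ
    have hk : ((ℓ : ℕ) : integralClosure ℤ ℂ ⧸ 𝔪) ≠ 0 := by
      intro h0
      have := (CharP.cast_eq_zero_iff _ P.p ℓ).mp h0
      exact hp ((Nat.prime_dvd_prime_iff_eq P.pp hℓ).mp this).symm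
    obtain ⟨a, ha, hc⟩ := hatt ℓ hℓ hM hk A hA τ hτ
    exact ⟨a, ha, (trace_of_charpoly ρ.finrank_eq _ _ _ hc).1⟩
  · intro ℓ hℓ hM hp A hA τ hτ
    have hk : ((ℓ : ℕ) : integralClosure ℤ ℂ ⧸ 𝔪) ≠ 0 := by
      intro h0
      have := (CharP.cast_eq_zero_iff _ P.p ℓ).mp h0
      exact hp ((Nat.prime_dvd_prime_iff_eq P.pp hℓ).mp this).symm
    obtain ⟨a, ha, hc⟩ := hatt ℓ hℓ hM hk A hA τ hτ
    exact (trace_of_charpoly ρ.finrank_eq _ _ _ hc).2

end Fermat.Agent.S42
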